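import Fermat.Agent.DS.Lift.Family
import Fermat.Agent.Cheb.Cross.ChebExactMain

/-!
# Programme III, kernel DS6 — lifting to characteristic zero (Deligne–Serre §8)

`exists_complex_rep` : if for infinitely many primes `l` there is a representation
`ρ_l : Γℚ → GL₂(k_l)` over a field of characteristic `l`, of finite level, of exponent `≤ A`,
unramified outside `N l`, with `tr ρ_l(Frob_p) = φ_l (a p)` and `det ρ_l(Frob_p) = φ_l (e p)` for
`p ∤ N l` (`φ_l : integralClosure ℤ ℂ →+* k_l` any ring homomorphism), then there is a complex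
representation `ρ : Γℚ → GL₂(ℂ)` of finite level, unramified outside `N`, with
`tr ρ(Frob_p) = a p` and `det ρ(Frob_p) = e p` for all `p ∤ N`.

The proof uses no lifting theory: roots of unity (`Lift/MatRoots`), Chebotarev (`Cheb.chebExact`)
to identify the kernels of the `ρ_l`, an ultraproduct of the `k_l` (`Lift/Ultra`) and Zariski's
lemma (`Lift/Transfer`).
-/

set_option autoImplicit false
set_option linter.style.haveILetI false
set_option linter.unusedSectionVars false
set_option linter.unusedVariables false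

namespace Fermat.Agent.DS.Lift

local notation "Qb" => AlgebraicClosure ℚ
local notation "Γℚ" => (AlgebraicClosure ℚ ≃ₐ[ℚ] AlgebraicClosure ℚ)
local notation "Zbar" => integralClosure ℤ ℂ

/-- Chebotarev's theorem (exact form) is a theorem (`Cheb.chebExact`). -/
theorem chebHyp : ChebHyp := Fermat.Agent.Cheb.chebExact

/-- The mod-`l` input of DS6 at one prime `l` (output of DS4 + DS5): a representation of `Γℚ` over
some field of characteristic `l`, of finite level, whose elements have order `≤ A`, unramified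
outside `N l`, with Frobenius traces and determinants the reductions of `a p`, `e p`. -/
def HasModRep (N A : ℕ) (a e : ℕ → Zbar) (l : ℕ) : Prop :=
  ∃ (k : Type) (_ : Field k) (_ : CharP k l) (φ : Zbar →+* k) (ρ : Γℚ →* GL (Fin 2) k),
    GaloisFactorsThroughFiniteLevel ρ ∧
    (∀ g : Γℚ, ∃ m : ℕ, 0 < m ∧ m ≤ A ∧ ρ g ^ m = 1) ∧
    ∀ p : ℕ, p.Prime → ¬ p ∣ N → p ≠ l →
      ∀ 𝒜 : ValuationSubring Qb, 𝒜.LiesOverPrime p →
        (∀ σ ∈ 𝒜.inertiaSubgroupIn ℚ, ρ σ = 1) ∧
        ∀ σ : Γℚ, 𝒜.IsFrobeniusAt σ p →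
          ((ρ σ : GL (Fin 2) k) : Matrix (Fin 2) (Fin 2) k).trace = φ (a p) ∧
          ((ρ σ : GL (Fin 2) k) : Matrix (Fin 2) (Fin 2) k).det = φ (e p)

/-- **DS6** (Deligne–Serre §8, lifting to characteristic zero). -/
theorem exists_complex_rep (N A : ℕ) [NeZero N] (a e : ℕ → Zbar) (L : Set ℕ) (hL : L.Infinite)
    (hrep : ∀ l ∈ L, l.Prime ∧ HasModRep N A a e l) :
    ∃ ρ : Γℚ →* GL (Fin 2) ℂ, GaloisFactorsThroughFiniteLevel ρ ∧
      ∀ p : ℕ, p.Prime → ¬ p ∣ N →
        ∀ 𝒜 : ValuationSubring Qb, 𝒜.LiesOverPrime p →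
          (∀ σ ∈ 𝒜.inertiaSubgroupIn ℚ, ρ σ = 1) ∧
          ∀ σ : Γℚ, 𝒜.IsFrobeniusAt σ p →
            ((ρ σ : GL (Fin 2) ℂ) : Matrix (Fin 2) (Fin 2) ℂ).trace = ((a p : Zbar) : ℂ) ∧
            ((ρ σ : GL (Fin 2) ℂ) : Matrix (Fin 2) (Fin 2) ℂ).det = ((e p : Zbar) : ℂ) := by
  haveI : Infinite ↥L := hL.to_subtype
  choose k hF hC φ ρ hlev hexp hloc using fun l : ↥L => (hrep l.1 l.2).2
  letI : ∀ l : ↥L, Field (k l) := hF
  haveI : ∀ l : ↥L, CharP (k l) l.1 := hC
  exact exists_complex_rep_of_family (N := N) (A := A) (a := a) (e := e) (ι := ↥L)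
    (ℓ := fun l : ↥L => l.1) Subtype.val_injective (k := k) (φ := φ) (ρ := ρ) chebHyp hlev hexp
    hloc

end Fermat.Agent.DS.Lift
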