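import Mathlib

/-!
# Programme III, kernel DS6 — `2 × 2` matrices of finite order

* `trace_det_of_pow_eq_one` : if `h ^ m = 1` in `M₂(k)` and `φ : O →+* k` is a ring homomorphism
  from a domain containing a primitive `m`-th root of unity, then `tr h = φ (z + z')` and
  `det h = φ (z z')` for two `m`-th roots of unity `z, z'` of `O`;
* `eq_one_of_trace_det_pow` : if moreover `m ≠ 0` in `k`, `tr h = 2` and `det h = 1`, then `h = 1`.
-/

set_option autoImplicit false

namespace Fermat.Agent.DS.Lift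

open Polynomial Matrix

section

variable {O : Type*} [CommRing O] [IsDomain O] {k : Type*} [Field k]

theorem map_X_pow_sub_one_eq_prod (φ : O →+* k) {m : ℕ} (hm : 0 < m) {ζ : O}
    (hζ : IsPrimitiveRoot ζ m) :
    (X ^ m - 1 : k[X]) = ∏ z ∈ nthRootsFinset m (1 : O), (X - C (φ z)) := by
  have h := congrArg (Polynomial.map φ) (X_pow_sub_one_eq_prod hm hζ)
  simpa [Polynomial.map_prod] using h

theorem exists_root_of_pow_eq_one (φ : O →+* k) {m : ℕ} (hm : 0 < m) {ζ : O}
    (hζ : IsPrimitiveRoot ζ m) {c : k} (hc : c ^ m = 1) :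
    ∃ z : O, z ^ m = 1 ∧ c = φ z := by
  have h := congrArg (Polynomial.eval c) (map_X_pow_sub_one_eq_prod φ hm hζ)
  rw [eval_sub, eval_pow, eval_X, eval_one, hc, sub_self, eval_prod] at h
  obtain ⟨z, hz, hz0⟩ := Finset.prod_eq_zero_iff.mp h.symm
  rw [eval_sub, eval_X, eval_C, sub_eq_zero] at hz0
  exact ⟨z, (mem_nthRootsFinset hm (1 : O)).mp hz, hz0⟩

/-- The trace and determinant of a `2 × 2` matrix of order dividing `m` are the images of
`z + z'` and `z z'` for two `m`-th roots of unity of `O`. -/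
theorem trace_det_of_pow_eq_one (φ : O →+* k) {m : ℕ} (hm : 0 < m) {ζ : O}
    (hζ : IsPrimitiveRoot ζ m) (h : Matrix (Fin 2) (Fin 2) k) (hpow : h ^ m = 1) :
    ∃ z z' : O, z ^ m = 1 ∧ z' ^ m = 1 ∧ h.trace = φ (z + z') ∧ h.det = φ (z * z') := by
  classical
  -- the minimal polynomial divides `X ^ m - 1`, which splits
  have hdvd : minpoly k h ∣ (X ^ m - 1 : k[X]) := by
    apply minpoly.dvd
    simp [hpow]
  have hne : (X ^ m - 1 : k[X]) ≠ 0 := (monic_X_pow_sub_C (1 : k) hm.ne').ne_zero
  have hsplit : Splits (X ^ m - 1 : k[X]) := by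
    rw [map_X_pow_sub_one_eq_prod φ hm hζ]
    exact Splits.prod fun z _ => Splits.X_sub_C _
  have hsp : Splits (minpoly k h) := hsplit.of_dvd hne hdvd
  have hint : IsIntegral k h := Matrix.isIntegral h
  have hdeg : (minpoly k h).degree ≠ 0 := (minpoly.degree_pos hint).ne'
  obtain ⟨c, hc⟩ := hsp.exists_eval_eq_zero hdeg
  -- `c` is an `m`-th root of unity
  have hcm : c ^ m = 1 := by
    obtain ⟨q, hq⟩ := hdvd
    have := congrArg (Polynomial.eval c) hq
    rw [eval_mul, hc, zero_mul, eval_sub, eval_pow, eval_X, eval_one, sub_eq_zero] at this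
    exact this
  -- `c` is a root of the characteristic polynomial
  have hchar : h.charpoly.eval c = 0 := by
    obtain ⟨q, hq⟩ := Matrix.minpoly_dvd_charpoly h
    rw [hq, eval_mul, hc, zero_mul]
  rw [Matrix.charpoly_fin_two] at hchar
  simp only [eval_add, eval_sub, eval_pow, eval_X, eval_mul, eval_C] at hchar
  have hdet : h.det = c * (h.trace - c) := by linear_combination hchar
  have hc0 : c ≠ 0 := by
    intro h0
    rw [h0, zero_pow hm.ne'] at hcm
    exact zero_ne_one hcm
  have hdm : h.det ^ m = 1 := by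
    rw [← Matrix.det_pow, hpow, Matrix.det_one]
  have hc'm : (h.trace - c) ^ m = 1 := by
    have : c ^ m * (h.trace - c) ^ m = 1 := by rw [← mul_pow, ← hdet, hdm]
    rwa [hcm, one_mul] at this
  obtain ⟨z, hz, hcz⟩ := exists_root_of_pow_eq_one φ hm hζ hcm
  obtain ⟨z', hz', hcz'⟩ := exists_root_of_pow_eq_one φ hm hζ hc'm
  refine ⟨z, z', hz, hz', ?_, ?_⟩
  · rw [map_add, ← hcz, ← hcz']; ring
  · rw [map_mul, ← hcz, ← hcz', hdet]

end

section

variable {k : Type*} [Field k]

theorem one_add_pow_of_sq_zero (N : Matrix (Fin 2) (Fin 2) k) (hN : N * N = 0) (n : ℕ) :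
    (1 + N) ^ n = 1 + (n : k) • N := by
  induction n with
  | zero => simp
  | succ n ih =>
    rw [pow_succ, ih, mul_add, mul_one, add_mul, one_mul, smul_mul_assoc, hN, smul_zero, add_zero,
      Nat.cast_succ, add_smul, one_smul, add_assoc]

/-- A `2 × 2` matrix of order prime to the characteristic with trace `2` and determinant `1` is
the identity. -/
theorem eq_one_of_trace_det_pow (h : Matrix (Fin 2) (Fin 2) k) {m : ℕ} (hm : (m : k) ≠ 0)
    (hpow : h ^ m = 1) (htr : h.trace = 2) (hdet : h.det = 1) : h = 1 := by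
  have hCH := Matrix.aeval_self_charpoly h
  rw [Matrix.charpoly_fin_two, htr, hdet] at hCH
  simp only [map_add, map_sub, map_pow, aeval_X, map_mul, aeval_C, map_one,
    Algebra.algebraMap_eq_smul_one] at hCH
  have hN : (h - 1) * (h - 1) = 0 := by
    have e : (h - 1) * (h - 1) = h ^ 2 - (2 : k) • (1 : Matrix (Fin 2) (Fin 2) k) * h + 1 := by
      rw [smul_mul_assoc, one_mul, two_smul]
      noncomm_ring
    rw [e]
    exact hCH
  have h1 : h = 1 + (h - 1) := by abel
  have h2 := one_add_pow_of_sq_zero (h - 1) hN m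
  rw [← h1, hpow] at h2
  have h3 : (m : k) • (h - 1) = 0 := by
    have := h2.symm
    rwa [add_eq_left] at this
  have h4 : h - 1 = 0 := by
    rcases smul_eq_zero.mp h3 with h5 | h5
    · exact absurd h5 hm
    · exact h5
  exact sub_eq_zero.mp h4

end

end Fermat.Agent.DS.Lift
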