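import Mathlib

/-!
# Programme III, kernel DS6 — the ring `Zbar = integralClosure ℤ ℂ` of all algebraic integers

* `exists_mul_eq_intCast` : a nonzero algebraic integer divides a nonzero rational integer;
* `le_natAbs_of_map_eq_zero` : hence it is killed by ring homomorphisms to fields of finitely many
  characteristics only;
* `exists_isPrimitiveRoot_zbar` : `Zbar` contains primitive roots of unity of all orders.
-/

set_option autoImplicit false

namespace Fermat.Agent.DS.Lift

open Polynomial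

local notation "Zbar" => integralClosure ℤ ℂ

theorem exists_mul_eq_intCast {x : Zbar} (hx : x ≠ 0) :
    ∃ (c : ℤ) (y : Zbar), c ≠ 0 ∧ y * x = (c : Zbar) := by
  obtain ⟨p, hp, hpx⟩ : IsIntegral ℤ x := Algebra.IsIntegral.isIntegral x
  obtain ⟨q, hq, hXq⟩ := exists_eq_pow_rootMultiplicity_mul_and_not_dvd p hp.ne_zero (0 : ℤ)
  rw [C_0, sub_zero] at hq hXq
  have hq0 : q.coeff 0 ≠ 0 := fun h => hXq (X_dvd_iff.mpr h)
  have hqx : aeval x q = 0 := by
    have h1 : aeval x p = 0 := hpx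
    rw [hq, map_mul, map_pow, aeval_X] at h1
    rcases mul_eq_zero.mp h1 with h2 | h2
    · exact absurd (eq_zero_of_pow_eq_zero h2) hx
    · exact h2
  refine ⟨-q.coeff 0, aeval x q.divX, neg_ne_zero.mpr hq0, ?_⟩
  have h := hqx
  rw [← Polynomial.divX_mul_X_add q, map_add, map_mul, aeval_X, aeval_C] at h
  rw [Int.cast_neg]
  have h' : algebraMap ℤ Zbar (q.coeff 0) = ((q.coeff 0 : ℤ) : Zbar) := rfl
  rw [h'] at h
  linear_combination h

theorem le_natAbs_of_map_eq_zero {x y : Zbar} {c : ℤ} (hc : c ≠ 0) (hxy : y * x = (c : Zbar))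
    {k : Type*} [Field k] {l : ℕ} [CharP k l] (φ : Zbar →+* k) (h : φ x = 0) : l ≤ c.natAbs := by
  have h1 : ((c : ℤ) : k) = 0 := by
    have := congrArg φ hxy
    rw [map_mul, h, mul_zero, map_intCast] at this
    exact this.symm
  have h2 : (l : ℤ) ∣ c := (CharP.intCast_eq_zero_iff k l c).mp h1
  have h3 : l ∣ c.natAbs := Int.natCast_dvd.mp h2
  exact Nat.le_of_dvd (Int.natAbs_pos.mpr hc) h3

theorem exists_isPrimitiveRoot_zbar {m : ℕ} (hm : 0 < m) : ∃ ζ : Zbar, IsPrimitiveRoot ζ m := by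
  have h := Complex.isPrimitiveRoot_exp m hm.ne'
  refine ⟨⟨_, h.isIntegral hm⟩, ?_⟩
  exact IsPrimitiveRoot.coe_submonoidClass_iff.mp h

end Fermat.Agent.DS.Lift
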