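import Fermat.Agent.DS.Lift.Ultra
import Fermat.Agent.DS.Lift.MatRoots
import Fermat.Agent.DS.Lift.Zbar
import Fermat.Prelude.Def_GaloisRep_Residual

/-!
# Programme III, kernel DS6 — the family-level theorem

An infinite family `(ρ i : Γℚ → GL₂(k i))` of representations of finite level and of exponent
`≤ A` over fields of pairwise distinct characteristics `ℓ i`, unramified outside `N ℓ i`, whose
Frobenius traces and determinants are the reductions of algebraic integers `a p`, `e p`, comes from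
ONE complex representation of finite level, unramified outside `N`, with Frobenius traces `a p` and
determinants `e p` (Deligne–Serre §8).  Chebotarev's theorem (exact form) enters as the hypothesis
`ChebHyp`, discharged in `Lift/Main.lean`.
-/

set_option autoImplicit false
set_option linter.style.haveILetI false
set_option linter.unusedSectionVars false
set_option linter.unusedVariables false

namespace Fermat.Agent.DS.Lift

open Polynomial Matrix

local notation "Qb" => AlgebraicClosure ℚ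
local notation "Γℚ" => (AlgebraicClosure ℚ ≃ₐ[ℚ] AlgebraicClosure ℚ)
local notation "Zbar" => integralClosure ℤ ℂ

/-- Chebotarev's theorem over `ℚ`, exact form (`Cheb.ChebExact`), as a hypothesis. -/
def ChebHyp : Prop :=
  ∀ (L : IntermediateField ℚ Qb), FiniteDimensional ℚ L → ∀ (σ : Γℚ) (T : Finset ℕ),
    ∃ q : ℕ, q.Prime ∧ q ∉ T ∧ ∃ (P : ValuationSubring Qb) (φ : Γℚ),
      P.LiesOverPrime q ∧ P.IsFrobeniusAt φ q ∧ ∀ x ∈ L, σ x = φ x

/-- The local conditions on a mod-`l` representation: unramified outside `N l`, with Frobenius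
traces and determinants the reductions of `a p` and `e p`. -/
def LocalCond (N : ℕ) (a e : ℕ → Zbar) (l : ℕ) {k : Type*} [Field k] (φ : Zbar →+* k)
    (ρ : Γℚ →* GL (Fin 2) k) : Prop :=
  ∀ p : ℕ, p.Prime → ¬ p ∣ N → p ≠ l →
    ∀ 𝒜 : ValuationSubring Qb, 𝒜.LiesOverPrime p →
      (∀ σ ∈ 𝒜.inertiaSubgroupIn ℚ, ρ σ = 1) ∧
      ∀ σ : Γℚ, 𝒜.IsFrobeniusAt σ p →
        ((ρ σ : GL (Fin 2) k) : Matrix (Fin 2) (Fin 2) k).trace = φ (a p) ∧
        ((ρ σ : GL (Fin 2) k) : Matrix (Fin 2) (Fin 2) k).det = φ (e p)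

/-- A homomorphism of finite level takes the same value at two elements agreeing on its level. -/
theorem eq_of_eqOn_level {G : Type*} [Group G] (ρ : Γℚ →* G) {E : IntermediateField ℚ Qb}
    (hρ : ∀ τ : Γℚ, (∀ x ∈ E, τ x = x) → ρ τ = 1) {σ τ : Γℚ} (h : ∀ x ∈ E, σ x = τ x) :
    ρ σ = ρ τ := by
  have h1 : ρ (σ⁻¹ * τ) = 1 := hρ _ fun x hx => by
    rw [AlgEquiv.mul_apply, ← h x hx]
    exact σ.symm_apply_apply x
  have h2 : τ = σ * (σ⁻¹ * τ) := by rw [mul_inv_cancel_left]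
  rw [h2, map_mul, h1, mul_one]

/-- The kernel of a homomorphism of finite level has finite index. -/
theorem finite_quotient_ker_of_level {G : Type} [Group G] (ρ : Γℚ →* G)
    (hρ : GaloisFactorsThroughFiniteLevel ρ) : Finite (Γℚ ⧸ ρ.ker) := by
  obtain ⟨E, hE, h⟩ := hρ
  haveI := hE
  haveI : IsAlgClosure ℚ Qb := AlgebraicClosure.instIsAlgClosure ℚ
  haveI : IsGalois ℚ Qb := inferInstance
  have hidx : E.fixingSubgroup.index ≠ 0 := by
    rw [← IntermediateField.finrank_eq_fixingSubgroup_index]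
    exact Module.finrank_pos.ne'
  haveI : E.fixingSubgroup.FiniteIndex := ⟨hidx⟩
  have hle : E.fixingSubgroup ≤ ρ.ker := by
    intro σ hσ
    rw [MonoidHom.mem_ker]
    exact h σ fun x hx => (IntermediateField.mem_fixingSubgroup_iff E σ).mp hσ x hx
  haveI : ρ.ker.FiniteIndex := Subgroup.finiteIndex_of_le hle
  exact Subgroup.finite_quotient_of_finiteIndex

section Family

variable {N A : ℕ} {a e : ℕ → Zbar} {ι : Type*} [Infinite ι] {ℓ : ι → ℕ}
  (hℓ : Function.Injective ℓ) {k : ι → Type} [∀ i, Field (k i)] [∀ i, CharP (k i) (ℓ i)]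
  {φ : ∀ i, Zbar →+* k i} {ρ : ∀ i, Γℚ →* GL (Fin 2) (k i)}

include hℓ

theorem finite_le (B : ℕ) : {i | ℓ i ≤ B}.Finite :=
  (Set.finite_Iic B).preimage hℓ.injOn

theorem finite_eq (p : ℕ) : {i | ℓ i = p}.Finite :=
  (finite_le hℓ p).subset fun i hi => le_of_eq hi

omit [Infinite ι] in
/-- A nonzero algebraic integer dies in finitely many `k i` only. -/
theorem finite_kill {x : Zbar} (hx : x ≠ 0) : {i | φ i x = 0}.Finite := by
  obtain ⟨c, y, hc, hxy⟩ := exists_mul_eq_intCast hx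
  exact ((Set.finite_Iic c.natAbs).preimage hℓ.injOn).subset fun i hi =>
    le_natAbs_of_map_eq_zero hc hxy (φ i) hi

theorem eq_of_infinite_kill {x y : Zbar} (h : {i | φ i x = φ i y}.Infinite) : x = y := by
  by_contra hxy
  apply h
  refine (finite_kill hℓ (φ := φ) (sub_ne_zero.mpr hxy)).subset fun i hi => ?_
  simp only [Set.mem_ofPred_eq] at hi ⊢
  rw [map_sub, hi, sub_self]

theorem finite_eq_of_ne {x y : Zbar} (hxy : x ≠ y) : {i | φ i x = φ i y}.Finite := by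
  by_contra h
  exact hxy (eq_of_infinite_kill hℓ h)

omit hℓ [Infinite ι] in
/-- The matrix of an element of exponent `m`. -/
theorem val_pow_eq_one {i : ι} {g : Γℚ} {m : ℕ} (h : ρ i g ^ m = 1) :
    ((ρ i g : GL (Fin 2) (k i)) : Matrix (Fin 2) (Fin 2) (k i)) ^ m = 1 := by
  have := congrArg Units.val h
  rwa [Units.val_pow_eq_pow_val, Units.val_one] at this

omit hℓ [Infinite ι] in
/-- Traces and determinants are the images of `z + z'`, `z z'` for `A!`-th roots of unity. -/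
theorem exists_roots (hexp : ∀ i (g : Γℚ), ∃ m : ℕ, 0 < m ∧ m ≤ A ∧ ρ i g ^ m = 1) (i : ι)
    (g : Γℚ) :
    ∃ z z' : Zbar, z ^ A.factorial = 1 ∧ z' ^ A.factorial = 1 ∧
      ((ρ i g : GL (Fin 2) (k i)) : Matrix (Fin 2) (Fin 2) (k i)).trace = φ i (z + z') ∧
      ((ρ i g : GL (Fin 2) (k i)) : Matrix (Fin 2) (Fin 2) (k i)).det = φ i (z * z') := by
  obtain ⟨m, hm0, hmA, hm⟩ := hexp i g
  obtain ⟨ζ, hζ⟩ := exists_isPrimitiveRoot_zbar hm0
  obtain ⟨z, z', hz, hz', ht, hd⟩ :=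
    trace_det_of_pow_eq_one (φ i) hm0 hζ _ (val_pow_eq_one hm)
  obtain ⟨c, hc⟩ := Nat.dvd_factorial hm0 hmA
  refine ⟨z, z', ?_, ?_, ht, hd⟩
  · rw [hc, pow_mul, hz, one_pow]
  · rw [hc, pow_mul, hz', one_pow]

/-- **Deligne–Serre (8.3)**: `a p` and `e p` are the sum and the product of two roots of unity of
order dividing `A!`, for every prime `p ∤ N` having a Frobenius element. -/
theorem exists_roots_global (hexp : ∀ i (g : Γℚ), ∃ m : ℕ, 0 < m ∧ m ≤ A ∧ ρ i g ^ m = 1)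
    (hloc : ∀ i, LocalCond N a e (ℓ i) (φ i) (ρ i)) {p : ℕ} (hp : p.Prime) (hpN : ¬ p ∣ N)
    {𝒜 : ValuationSubring Qb} (h𝒜 : 𝒜.LiesOverPrime p) {σ : Γℚ} (hσ : 𝒜.IsFrobeniusAt σ p) :
    ∃ z z' : Zbar, z ^ A.factorial = 1 ∧ z' ^ A.factorial = 1 ∧ a p = z + z' ∧
      e p = z * z' := by
  classical
  by_contra hcon
  push Not at hcon
  have hAf : 0 < A.factorial := Nat.factorial_pos A
  let μ : Finset Zbar := nthRootsFinset A.factorial (1 : Zbar)
  have hinf : {i | ℓ i ≠ p}.Infinite := (finite_eq hℓ p).infinite_compl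
  apply hinf
  have hsub : {i | ℓ i ≠ p} ⊆ ⋃ y ∈ (↑(μ ×ˢ μ) : Set (Zbar × Zbar)),
      {i | φ i (a p) = φ i (y.1 + y.2) ∧ φ i (e p) = φ i (y.1 * y.2)} := by
    intro i hi
    obtain ⟨z, z', hz, hz', ht, hd⟩ := exists_roots (φ := φ) hexp i σ
    obtain ⟨ht', hd'⟩ := (hloc i p hp hpN (fun h => hi h.symm) 𝒜 h𝒜).2 σ hσ
    simp only [Set.mem_iUnion, Set.mem_ofPred_eq, exists_prop]
    refine ⟨(z, z'), ?_, ?_, ?_⟩
    · simp only [Finset.coe_product, Set.mem_prod, Finset.mem_coe]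
      exact ⟨(mem_nthRootsFinset hAf 1).mpr hz, (mem_nthRootsFinset hAf 1).mpr hz'⟩
    · rw [← ht', ht]
    · rw [← hd', hd]
  refine Set.Finite.subset (Set.Finite.biUnion (Finset.finite_toSet _) fun y hy => ?_) hsub
  simp only [Finset.coe_product, Set.mem_prod, Finset.mem_coe] at hy
  have hy1 : y.1 ^ A.factorial = 1 := (mem_nthRootsFinset hAf 1).mp hy.1
  have hy2 : y.2 ^ A.factorial = 1 := (mem_nthRootsFinset hAf 1).mp hy.2
  by_cases h1 : a p = y.1 + y.2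
  · have h2 := hcon y.1 y.2 hy1 hy2 h1
    exact (finite_eq_of_ne hℓ (φ := φ) h2).subset fun i hi => hi.2
  · exact (finite_eq_of_ne hℓ (φ := φ) h1).subset fun i hi => hi.1

/-- The good indices: the characteristic exceeds `A`, and reduction does not create new
coincidences `z + z' = 2`, `z z' = 1` among roots of unity of order dividing `A!`. -/
def IsGood (A : ℕ) (ℓ : ι → ℕ) (φ : ∀ i, Zbar →+* k i) (i : ι) : Prop :=
  A < ℓ i ∧ ∀ z z' : Zbar, z ^ A.factorial = 1 → z' ^ A.factorial = 1 →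
    (φ i (z + z') = 2 → z + z' = 2) ∧ (φ i (z * z') = 1 → z * z' = 1)

theorem finite_not_isGood : {i | ¬ IsGood A ℓ φ i}.Finite := by
  classical
  have hAf : 0 < A.factorial := Nat.factorial_pos A
  let μ : Finset Zbar := nthRootsFinset A.factorial (1 : Zbar)
  have hsub : {i | ¬ IsGood A ℓ φ i} ⊆ {i | ℓ i ≤ A} ∪ ⋃ y ∈ (↑(μ ×ˢ μ) : Set (Zbar × Zbar)),
      ({i | φ i (y.1 + y.2) = φ i 2 ∧ y.1 + y.2 ≠ 2} ∪
        {i | φ i (y.1 * y.2) = φ i 1 ∧ y.1 * y.2 ≠ 1}) := by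
    intro i hi
    by_cases hA : A < ℓ i
    · right
      by_contra hcon
      apply hi
      have hmem : ∀ z z' : Zbar, z ^ A.factorial = 1 → z' ^ A.factorial = 1 →
          (z, z') ∈ (↑(μ ×ˢ μ) : Set (Zbar × Zbar)) := by
        intro z z' hz hz'
        simp only [Finset.coe_product, Set.mem_prod, Finset.mem_coe]
        exact ⟨(mem_nthRootsFinset hAf 1).mpr hz, (mem_nthRootsFinset hAf 1).mpr hz'⟩
      refine ⟨hA, fun z z' hz hz' => ⟨fun h => ?_, fun h => ?_⟩⟩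
      · by_contra hne
        apply hcon
        simp only [Set.mem_iUnion, exists_prop]
        exact ⟨(z, z'), hmem z z' hz hz', Or.inl ⟨by rw [h, map_ofNat], hne⟩⟩
      · by_contra hne
        apply hcon
        simp only [Set.mem_iUnion, exists_prop]
        exact ⟨(z, z'), hmem z z' hz hz', Or.inr ⟨by rw [h, map_one], hne⟩⟩
    · left
      exact not_lt.mp hA
  refine Set.Finite.subset ((finite_le hℓ A).union
    (Set.Finite.biUnion (Finset.finite_toSet _) fun y _ => Set.Finite.union ?_ ?_)) hsub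
  · by_cases h : y.1 + y.2 = 2
    · exact Set.finite_empty.subset fun i hi => absurd h hi.2
    · exact (finite_eq_of_ne hℓ (φ := φ) h).subset fun i hi => hi.1
  · by_cases h : y.1 * y.2 = 1
    · exact Set.finite_empty.subset fun i hi => absurd h hi.2
    · exact (finite_eq_of_ne hℓ (φ := φ) h).subset fun i hi => hi.1

theorem infinite_isGood : {i | IsGood A ℓ φ i}.Infinite := by
  have h := (finite_not_isGood hℓ (A := A) (φ := φ)).infinite_compl
  refine h.mono fun i hi => ?_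
  simp only [Set.mem_compl_iff, Set.mem_ofPred_eq, not_not] at hi
  exact hi

omit hℓ [Infinite ι] in
theorem natCast_ne_zero_of_lt {i : ι} {m : ℕ} (hm0 : 0 < m) (hm : m < ℓ i) : (m : k i) ≠ 0 := by
  intro h
  have h1 : ℓ i ∣ m := (CharP.cast_eq_zero_iff (k i) (ℓ i) m).mp h
  exact absurd (Nat.le_of_dvd hm0 h1) (not_le.mpr hm)

/-- **The kernels of the good members of the family coincide.** -/
theorem eq_one_of_isGood [NeZero N] (hcheb : ChebHyp)
    (hlev : ∀ i, GaloisFactorsThroughFiniteLevel (ρ i))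
    (hexp : ∀ i (g : Γℚ), ∃ m : ℕ, 0 < m ∧ m ≤ A ∧ ρ i g ^ m = 1)
    (hloc : ∀ i, LocalCond N a e (ℓ i) (φ i) (ρ i)) {i i' : ι} (hi : IsGood A ℓ φ i)
    (hi' : IsGood A ℓ φ i') {g : Γℚ} (hg : ρ i' g = 1) : ρ i g = 1 := by
  classical
  obtain ⟨E, hE, hEρ⟩ := hlev i
  obtain ⟨E', hE', hEρ'⟩ := hlev i'
  haveI := hE
  haveI := hE'
  have hL : FiniteDimensional ℚ ↥(E ⊔ E') := IntermediateField.finiteDimensional_sup E E'
  obtain ⟨p, hp, hpT, 𝒜, τ, h𝒜, hτ, hgτ⟩ :=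
    hcheb (E ⊔ E') hL g (N.primeFactors ∪ {ℓ i, ℓ i'})
  have h1 : ρ i g = ρ i τ :=
    eq_of_eqOn_level (ρ i) hEρ fun x hx => hgτ x ((le_sup_left : E ≤ E ⊔ E') hx)
  have h2 : ρ i' τ = 1 := by
    rw [← eq_of_eqOn_level (ρ i') hEρ' fun x hx => hgτ x ((le_sup_right : E' ≤ E ⊔ E') hx), hg]
  simp only [Finset.mem_union, Finset.mem_insert, Finset.mem_singleton, not_or] at hpT
  have hpN : ¬ p ∣ N := fun h => hpT.1 (Nat.mem_primeFactors.mpr ⟨hp, h, NeZero.ne N⟩)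
  -- at `i'` the Frobenius `τ` is trivial, so `a p = 2` and `e p = 1`
  obtain ⟨ht', hd'⟩ := (hloc i' p hp hpN hpT.2.2 𝒜 h𝒜).2 τ hτ
  rw [h2] at ht' hd'
  obtain ⟨z, z', hz, hz', haz, hez⟩ := exists_roots_global hℓ hexp hloc hp hpN h𝒜 hτ
  have e1 : φ i' (z + z') = 2 := by
    rw [← haz, ← ht']
    simp
  have e2 : φ i' (z * z') = 1 := by
    rw [← hez, ← hd']
    simp
  have ha2 : a p = 2 := by rw [haz]; exact (hi'.2 z z' hz hz').1 e1
  have he1 : e p = 1 := by rw [hez]; exact (hi'.2 z z' hz hz').2 e2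
  -- at `i` the Frobenius `τ` has trace `2` and determinant `1`, hence is trivial
  obtain ⟨ht, hd⟩ := (hloc i p hp hpN hpT.2.1 𝒜 h𝒜).2 τ hτ
  rw [ha2, map_ofNat] at ht
  rw [he1, map_one] at hd
  obtain ⟨m, hm0, hmA, hm⟩ := hexp i τ
  have hm' : (m : k i) ≠ 0 := natCast_ne_zero_of_lt hm0 (lt_of_le_of_lt hmA hi.1)
  have h3 := eq_one_of_trace_det_pow _ hm' (val_pow_eq_one hm) ht hd
  rw [h1]
  exact Units.ext h3

/-- **DS6, family form** (Deligne–Serre §8). -/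
theorem exists_complex_rep_of_family [NeZero N] (hcheb : ChebHyp)
    (hlev : ∀ i, GaloisFactorsThroughFiniteLevel (ρ i))
    (hexp : ∀ i (g : Γℚ), ∃ m : ℕ, 0 < m ∧ m ≤ A ∧ ρ i g ^ m = 1)
    (hloc : ∀ i, LocalCond N a e (ℓ i) (φ i) (ρ i)) :
    ∃ ρ' : Γℚ →* GL (Fin 2) ℂ, GaloisFactorsThroughFiniteLevel ρ' ∧
      ∀ p : ℕ, p.Prime → ¬ p ∣ N →
        ∀ 𝒜 : ValuationSubring Qb, 𝒜.LiesOverPrime p →
          (∀ σ ∈ 𝒜.inertiaSubgroupIn ℚ, ρ' σ = 1) ∧
          ∀ σ : Γℚ, 𝒜.IsFrobeniusAt σ p →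
            ((ρ' σ : GL (Fin 2) ℂ) : Matrix (Fin 2) (Fin 2) ℂ).trace = ((a p : Zbar) : ℂ) ∧
            ((ρ' σ : GL (Fin 2) ℂ) : Matrix (Fin 2) (Fin 2) ℂ).det = ((e p : Zbar) : ℂ) := by
  classical
  -- the good indices
  let J := {i // IsGood A ℓ φ i}
  haveI : Infinite J := (infinite_isGood hℓ).to_subtype
  obtain ⟨i₀⟩ : Nonempty J := inferInstance
  have hℓJ : Function.Injective fun j : J => ℓ j.1 := hℓ.comp Subtype.val_injective
  -- the common kernel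
  let U : Subgroup Γℚ := (ρ i₀.1).ker
  haveI : U.Normal := MonoidHom.normal_ker _
  have hU : ∀ j : J, ∀ g : Γℚ, ρ j.1 g = 1 ↔ g ∈ U := by
    intro j g
    rw [MonoidHom.mem_ker]
    exact ⟨fun h => eq_one_of_isGood hℓ hcheb hlev hexp hloc i₀.2 j.2 h,
      fun h => eq_one_of_isGood hℓ hcheb hlev hexp hloc j.2 i₀.2 h⟩
  have hUeq : ∀ (j : J) {g g' : Γℚ}, (QuotientGroup.mk g : Γℚ ⧸ U) = QuotientGroup.mk g' →
      ρ j.1 g = ρ j.1 g' := by
    intro j g g' h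
    have h1 : g⁻¹ * g' ∈ U := QuotientGroup.eq.mp h
    have h2 := (hU j _).mpr h1
    rw [map_mul, map_inv, inv_mul_eq_one] at h2
    exact h2
  haveI : Finite (Γℚ ⧸ U) := finite_quotient_ker_of_level (ρ i₀.1) (hlev i₀.1)
  obtain ⟨E₀, hE₀, hE₀ρ⟩ := hlev i₀.1
  -- the representations of the common finite quotient
  let r : ∀ j : J, (Γℚ ⧸ U) →* GL (Fin 2) (k j.1) := fun j =>
    QuotientGroup.lift U (ρ j.1) fun g hg => MonoidHom.mem_ker.mpr ((hU j g).mpr hg)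
  have hr : ∀ (j : J) (g : Γℚ), r j (QuotientGroup.mk g) = ρ j.1 g := fun j g => rfl
  -- every class is a Frobenius class at some prime not dividing `N`
  have hex : ∀ γ : Γℚ ⧸ U, ∃ p : ℕ, p.Prime ∧ ¬ p ∣ N ∧ ∃ (𝒜 : ValuationSubring Qb) (τ : Γℚ),
      𝒜.LiesOverPrime p ∧ 𝒜.IsFrobeniusAt τ p ∧ (QuotientGroup.mk τ : Γℚ ⧸ U) = γ := by
    intro γ
    obtain ⟨g, rfl⟩ := QuotientGroup.mk_surjective γ
    obtain ⟨p, hp, hpT, 𝒜, τ, h𝒜, hτ, hgτ⟩ := hcheb E₀ hE₀ g N.primeFactors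
    refine ⟨p, hp, fun h => hpT (Nat.mem_primeFactors.mpr ⟨hp, h, NeZero.ne N⟩), 𝒜, τ, h𝒜, hτ, ?_⟩
    rw [QuotientGroup.eq]
    change ρ i₀.1 (τ⁻¹ * g) = 1
    rw [map_mul, map_inv, inv_mul_eq_one]
    exact (eq_of_eqOn_level (ρ i₀.1) hE₀ρ hgτ).symm
  choose P hPp hPN 𝒜' τ' h𝒜' hτ' hmk using hex
  -- the ultraproduct representation, transferred to `ℂ`
  have hφJ : ∀ x : Zbar, x ≠ 0 → {j : J | φ j.1 x = 0}.Finite := fun x hx =>
    finite_kill (ι := J) (ℓ := fun j : J => ℓ j.1) hℓJ (k := fun j : J => k j.1)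
      (φ := fun j : J => φ j.1) hx
  have hfr : ∀ (j : J) (γ : Γℚ ⧸ U), ℓ j.1 ≠ P γ →
      ((r j γ : GL (Fin 2) (k j.1)) : Matrix (Fin 2) (Fin 2) (k j.1)).trace = φ j.1 (a (P γ)) ∧
      ((r j γ : GL (Fin 2) (k j.1)) : Matrix (Fin 2) (Fin 2) (k j.1)).det = φ j.1 (e (P γ)) := by
    intro j γ hj
    have h1 : r j γ = ρ j.1 (τ' γ) := by rw [← hr j (τ' γ), hmk γ]
    rw [h1]
    exact (hloc j.1 (P γ) (hPp γ) (hPN γ) (fun h => hj h.symm) (𝒜' γ) (h𝒜' γ)).2 (τ' γ) (hτ' γ)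
  have ht : ∀ γ : Γℚ ⧸ U,
      {j : J | ((r j γ : GL (Fin 2) (k j.1)) : Matrix (Fin 2) (Fin 2) (k j.1)).trace ≠
        φ j.1 (a (P γ))}.Finite := fun γ =>
    (finite_eq (ι := J) (ℓ := fun j : J => ℓ j.1) hℓJ (P γ)).subset fun j hj => by
      by_contra h
      exact hj (hfr j γ h).1
  have hd : ∀ γ : Γℚ ⧸ U,
      {j : J | ((r j γ : GL (Fin 2) (k j.1)) : Matrix (Fin 2) (Fin 2) (k j.1)).det ≠
        φ j.1 (e (P γ))}.Finite := fun γ =>
    (finite_eq (ι := J) (ℓ := fun j : J => ℓ j.1) hℓJ (P γ)).subset fun j hj => by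
      by_contra h
      exact hj (hfr j γ h).2
  obtain ⟨r', hr't, hr'd⟩ := exists_rep_ultra (Ω := ℂ) (k := fun j : J => k j.1)
    (algebraMap Zbar ℂ) Subtype.val_injective (fun j : J => φ j.1) hφJ r
    (fun γ => a (P γ)) (fun γ => e (P γ)) ht hd
  -- independence of the Frobenius witness
  have hindep : ∀ {p : ℕ}, p.Prime → ¬ p ∣ N → ∀ {𝒜 : ValuationSubring Qb}, 𝒜.LiesOverPrime p →
      ∀ {σ : Γℚ}, 𝒜.IsFrobeniusAt σ p →
        a (P (QuotientGroup.mk σ : Γℚ ⧸ U)) = a p ∧ e (P (QuotientGroup.mk σ : Γℚ ⧸ U)) = e p := by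
    intro p hp hpN 𝒜 h𝒜 σ hσ
    set γ : Γℚ ⧸ U := QuotientGroup.mk σ with hγ
    have hinf : {j : J | ℓ j.1 ≠ p ∧ ℓ j.1 ≠ P γ}.Infinite := by
      have hfin : {j : J | ℓ j.1 = p ∨ ℓ j.1 = P γ}.Finite :=
        (finite_eq (ι := J) (ℓ := fun j : J => ℓ j.1) hℓJ p).union
          (finite_eq (ι := J) (ℓ := fun j : J => ℓ j.1) hℓJ (P γ))
      refine hfin.infinite_compl.mono fun j hj => ?_
      simp only [Set.mem_compl_iff, Set.mem_ofPred_eq, not_or] at hj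
      exact hj
    have hkey : ∀ j : J, ℓ j.1 ≠ p → ℓ j.1 ≠ P γ →
        φ j.1 (a (P γ)) = φ j.1 (a p) ∧ φ j.1 (e (P γ)) = φ j.1 (e p) := by
      intro j hjp hjP
      obtain ⟨h1, h2⟩ := hfr j γ hjP
      obtain ⟨h3, h4⟩ := (hloc j.1 p hp hpN (fun h => hjp h.symm) 𝒜 h𝒜).2 σ hσ
      have h5 : r j γ = ρ j.1 σ := hr j σ
      rw [h5] at h1 h2
      exact ⟨by rw [← h1, h3], by rw [← h2, h4]⟩
    constructor
    · exact eq_of_infinite_kill (ι := J) (ℓ := fun j : J => ℓ j.1) hℓJ (k := fun j : J => k j.1)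
        (φ := fun j : J => φ j.1) (hinf.mono fun j hj => (hkey j hj.1 hj.2).1)
    · exact eq_of_infinite_kill (ι := J) (ℓ := fun j : J => ℓ j.1) hℓJ (k := fun j : J => k j.1)
        (φ := fun j : J => φ j.1) (hinf.mono fun j hj => (hkey j hj.1 hj.2).2)
  refine ⟨r'.comp (QuotientGroup.mk' U), ⟨E₀, hE₀, fun σ hσ => ?_⟩, fun p hp hpN 𝒜 h𝒜 => ⟨?_, ?_⟩⟩
  · have h1 : σ ∈ U := MonoidHom.mem_ker.mpr (hE₀ρ σ hσ)
    have h2 : (QuotientGroup.mk' U) σ = 1 := (QuotientGroup.eq_one_iff σ).mpr h1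
    rw [MonoidHom.comp_apply, h2, map_one]
  · intro σ hσ
    obtain ⟨j, hj⟩ := (finite_eq (ι := J) (ℓ := fun j : J => ℓ j.1) hℓJ p).infinite_compl.nonempty
    have h0 : ρ j.1 σ = 1 := (hloc j.1 p hp hpN (fun h => hj h.symm) 𝒜 h𝒜).1 σ hσ
    have h1 : σ ∈ U := (hU j σ).mp h0
    have h2 : (QuotientGroup.mk' U) σ = 1 := (QuotientGroup.eq_one_iff σ).mpr h1
    rw [MonoidHom.comp_apply, h2, map_one]
  · intro σ hσ
    obtain ⟨h1, h2⟩ := hindep hp hpN h𝒜 hσ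
    have e1 : (r'.comp (QuotientGroup.mk' U)) σ = r' (QuotientGroup.mk σ : Γℚ ⧸ U) := rfl
    rw [e1, hr't, hr'd, h1, h2]
    exact ⟨rfl, rfl⟩

end Family

end Fermat.Agent.DS.Lift
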