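import Mathlib

/-!
# Programme III, kernel DS6 (lifting to characteristic zero) — the Zariski-lemma transfer

A two-dimensional representation of a finite group `Γ` over *some* nontrivial commutative
`k`-algebra `E`, all of whose traces and determinants lie in the field `k`, can be moved to any
algebraically closed field `Ω` over `k`, with the same traces and determinants: the generic
representation ring `k[x_{g,i,j}] / ker(ev)` is a nonzero `k`-algebra of finite type, so a maximal
ideal of it has a residue field finite over `k` (Zariski's lemma), which embeds in `Ω` over `k`.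

* `exists_rep_of_rep_algebra` : the version over a field `k`;
* `exists_rep_of_rep_domain` : the version over a domain `O` mapping injectively to a field `F`
  (where the given representation lives) and to `Ω`.
-/

set_option autoImplicit false
set_option linter.style.haveILetI false
set_option linter.unusedSectionVars false

namespace Fermat.Agent.DS.Lift

open MvPolynomial Matrix

section Field

variable {k : Type*} [Field k] {Ω : Type*} [Field Ω] [IsAlgClosed Ω] [Algebra k Ω]
  {E : Type*} [CommRing E] [Nontrivial E] [Algebra k E]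
  {Γ : Type*} [Group Γ] [Finite Γ]

/-- The generic `2 × 2` matrix attached to `g : Γ`. -/
noncomputable def genMat (k : Type*) [Field k] {Γ : Type*} (g : Γ) :
    Matrix (Fin 2) (Fin 2) (MvPolynomial (Γ × Fin 2 × Fin 2) k) :=
  Matrix.of fun i j => X (g, i, j)

theorem genMat_map_aeval {R : Type*} [CommRing R] [Algebra k R]
    (M : Γ → Matrix (Fin 2) (Fin 2) R) (g : Γ) :
    (genMat k g).map (aeval (fun x : Γ × Fin 2 × Fin 2 => M x.1 x.2.1 x.2.2)) = M g := by
  ext i j
  simp [genMat]

/-- **Zariski-lemma transfer** (field version). -/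
theorem exists_rep_of_rep_algebra (t d : Γ → k) (r : Γ →* GL (Fin 2) E)
    (ht : ∀ g, ((r g : GL (Fin 2) E) : Matrix (Fin 2) (Fin 2) E).trace = algebraMap k E (t g))
    (hd : ∀ g, ((r g : GL (Fin 2) E) : Matrix (Fin 2) (Fin 2) E).det = algebraMap k E (d g)) :
    ∃ r' : Γ →* GL (Fin 2) Ω,
      (∀ g, ((r' g : GL (Fin 2) Ω) : Matrix (Fin 2) (Fin 2) Ω).trace = algebraMap k Ω (t g)) ∧
      ∀ g, ((r' g : GL (Fin 2) Ω) : Matrix (Fin 2) (Fin 2) Ω).det = algebraMap k Ω (d g) := by
  classical
  let σ := Γ × Fin 2 × Fin 2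
  let A₀ := MvPolynomial σ k
  let M : Γ → Matrix (Fin 2) (Fin 2) E := fun g => ((r g : GL (Fin 2) E) : Matrix (Fin 2) (Fin 2) E)
  let ev : A₀ →ₐ[k] E := aeval (fun x : σ => M x.1 x.2.1 x.2.2)
  have hev : ∀ g, (genMat k g).map ev = M g := genMat_map_aeval M
  -- a maximal ideal containing the kernel of `ev`
  have hker : RingHom.ker (ev : A₀ →+* E) ≠ ⊤ := by
    rw [Ne, Ideal.eq_top_iff_one, RingHom.mem_ker]
    simp
  obtain ⟨𝔐, h𝔐, hle⟩ := Ideal.exists_le_maximal _ hker
  letI : Field (A₀ ⧸ 𝔐) := Ideal.Quotient.field 𝔐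
  haveI : Algebra.FiniteType k (A₀ ⧸ 𝔐) :=
    Algebra.FiniteType.of_surjective (Ideal.Quotient.mkₐ k 𝔐) (Ideal.Quotient.mkₐ_surjective k 𝔐)
  haveI : Module.Finite k (A₀ ⧸ 𝔐) := finite_of_finite_type_of_isJacobsonRing k (A₀ ⧸ 𝔐)
  haveI : Algebra.IsAlgebraic k (A₀ ⧸ 𝔐) := Algebra.IsAlgebraic.of_finite k (A₀ ⧸ 𝔐)
  let emb : (A₀ ⧸ 𝔐) →ₐ[k] Ω := IsAlgClosed.lift
  let ψ : A₀ →ₐ[k] Ω := emb.comp (Ideal.Quotient.mkₐ k 𝔐)
  have hψ : ∀ f : A₀, ev f = 0 → ψ f = 0 := by
    intro f hf
    have h1 : f ∈ 𝔐 := hle (by rw [RingHom.mem_ker]; exact hf)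
    have h2 : Ideal.Quotient.mkₐ k 𝔐 f = 0 := by
      rw [Ideal.Quotient.mkₐ_eq_mk]; exact Ideal.Quotient.eq_zero_iff_mem.mpr h1
    change emb (Ideal.Quotient.mkₐ k 𝔐 f) = 0
    rw [h2, map_zero]
  have hψ' : ∀ f f' : A₀, ev f = ev f' → ψ f = ψ f' := by
    intro f f' h
    have := hψ (f - f') (by rw [map_sub, h, sub_self])
    rwa [map_sub, sub_eq_zero] at this
  let M' : Γ → Matrix (Fin 2) (Fin 2) Ω := fun g => (genMat k g).map ψ
  have hmul : ∀ g h, M' (g * h) = M' g * M' h := by
    intro g h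
    have e1 : M' g * M' h = (genMat k g * genMat k h).map ψ := by
      change (genMat k g).map ψ * (genMat k h).map ψ = _
      rw [Matrix.map_mul]
    rw [e1]
    ext i j
    change ψ (genMat k (g * h) i j) = ψ ((genMat k g * genMat k h) i j)
    apply hψ'
    have e2 : ev ((genMat k g * genMat k h) i j) = ((genMat k g * genMat k h).map ev) i j := rfl
    have e3 : ev (genMat k (g * h) i j) = ((genMat k (g * h)).map ev) i j := rfl
    rw [e2, e3, Matrix.map_mul, hev, hev, hev]
    change ((r (g * h) : GL (Fin 2) E) : Matrix (Fin 2) (Fin 2) E) i j = _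
    rw [map_mul]; rfl
  have hone : M' 1 = 1 := by
    ext i j
    change ψ (genMat k (1 : Γ) i j) = (1 : Matrix (Fin 2) (Fin 2) Ω) i j
    have e0 : (1 : Matrix (Fin 2) (Fin 2) Ω) i j = ψ ((1 : Matrix (Fin 2) (Fin 2) A₀) i j) := by
      by_cases hij : i = j
      · subst hij; simp
      · simp [hij]
    rw [e0]
    apply hψ'
    have e3 : ev (genMat k (1 : Γ) i j) = ((genMat k (1 : Γ)).map ev) i j := rfl
    rw [e3, hev]
    change ((r 1 : GL (Fin 2) E) : Matrix (Fin 2) (Fin 2) E) i j = _
    rw [map_one]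
    by_cases hij : i = j
    · subst hij; simp
    · simp [hij]
  let r₀ : Γ →* Matrix (Fin 2) (Fin 2) Ω :=
    { toFun := M', map_one' := hone, map_mul' := hmul }
  refine ⟨r₀.toHomUnits, fun g => ?_, fun g => ?_⟩
  · change (M' g).trace = _
    have e1 : (M' g).trace = ψ ((genMat k g).trace) := by
      change ((genMat k g).map ψ).trace = _
      simp [Matrix.trace_fin_two]
    rw [e1, ← ψ.commutes (t g)]
    apply hψ'
    have e2 : ev ((genMat k g).trace) = ((genMat k g).map ev).trace := by
      simp [Matrix.trace_fin_two]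
    rw [e2, hev, ev.commutes]
    exact ht g
  · change (M' g).det = _
    have e1 : (M' g).det = ψ ((genMat k g).det) := by
      change ((genMat k g).map ψ).det = _
      simp [Matrix.det_fin_two]
    rw [e1, ← ψ.commutes (d g)]
    apply hψ'
    have e2 : ev ((genMat k g).det) = ((genMat k g).map ev).det := by
      simp [Matrix.det_fin_two]
    rw [e2, hev, ev.commutes]
    exact hd g

end Field

section Domain

variable {O : Type*} [CommRing O] [IsDomain O] {Ω : Type*} [Field Ω] [IsAlgClosed Ω]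
  {F : Type*} [Field F] {Γ : Type*} [Group Γ] [Finite Γ]

/-- **Zariski-lemma transfer** (domain version): `O` maps injectively to the field `F`, where the
representation lives, and to the algebraically closed field `Ω`. -/
theorem exists_rep_of_rep_domain (ι : O →+* Ω) (hι : Function.Injective ι) (j : O →+* F)
    (hj : Function.Injective j) (t d : Γ → O) (r : Γ →* GL (Fin 2) F)
    (ht : ∀ g, ((r g : GL (Fin 2) F) : Matrix (Fin 2) (Fin 2) F).trace = j (t g))
    (hd : ∀ g, ((r g : GL (Fin 2) F) : Matrix (Fin 2) (Fin 2) F).det = j (d g)) :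
    ∃ r' : Γ →* GL (Fin 2) Ω,
      (∀ g, ((r' g : GL (Fin 2) Ω) : Matrix (Fin 2) (Fin 2) Ω).trace = ι (t g)) ∧
      ∀ g, ((r' g : GL (Fin 2) Ω) : Matrix (Fin 2) (Fin 2) Ω).det = ι (d g) := by
  let K := FractionRing O
  letI : Algebra K F := (IsFractionRing.lift (K := K) hj).toAlgebra
  letI : Algebra K Ω := (IsFractionRing.lift (K := K) hι).toAlgebra
  have hF : ∀ x : O, algebraMap K F (algebraMap O K x) = j x := fun x =>
    IsFractionRing.lift_algebraMap hj x
  have hΩ : ∀ x : O, algebraMap K Ω (algebraMap O K x) = ι x := fun x =>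
    IsFractionRing.lift_algebraMap hι x
  obtain ⟨r', h1, h2⟩ := exists_rep_of_rep_algebra (k := K) (Ω := Ω) (E := F)
    (fun g => algebraMap O K (t g)) (fun g => algebraMap O K (d g)) r
    (fun g => by rw [ht, hF]) (fun g => by rw [hd, hF])
  exact ⟨r', fun g => by rw [h1, hΩ], fun g => by rw [h2, hΩ]⟩

end Domain

end Fermat.Agent.DS.Lift
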