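import Fermat.Agent.DS.Lift.Transfer

/-!
# Programme III, kernel DS6 — the ultraproduct step (in place of lifting representations)

Let `(k i)_{i ∈ ι}` be an infinite family of fields, `P = ∏ k i`, and `𝔪` a maximal ideal of `P`
containing all finitely supported elements.  Then `F = P / 𝔪` is a field, and every ring `O` with
homomorphisms `φ i : O → k i` such that every nonzero element dies in finitely many `k i` only
embeds into `F`.  A family of representations `r i : Γ → GL₂(k i)` whose traces and determinants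
are, for all but finitely many `i`, the reductions of `t g`, `d g ∈ O` gives a representation over
`F` with traces and determinants *equal* to `t g`, `d g`; the Zariski-lemma transfer then moves it
to any algebraically closed field containing `O`.

* `finSuppIdeal` : the ideal of finitely supported elements of a product of fields;
* `exists_rep_ultra` : the resulting representation over `Ω`.
-/

set_option autoImplicit false
set_option linter.style.haveILetI false
set_option linter.unusedSectionVars false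

namespace Fermat.Agent.DS.Lift

open Matrix

section

variable {ι : Type*} (k : ι → Type*) [∀ i, Field (k i)]

/-- The ideal of finitely supported elements of a product of fields. -/
def finSuppIdeal : Ideal (∀ i, k i) where
  carrier := {x | {i | x i ≠ 0}.Finite}
  add_mem' := by
    intro x y hx hy
    refine (hx.union hy).subset fun i hi => ?_
    simp only [Set.mem_ofPred_eq, Pi.add_apply] at hi
    by_contra h
    simp only [Set.mem_union, Set.mem_ofPred_eq, not_or, not_not] at h
    exact hi (by rw [h.1, h.2, add_zero])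
  zero_mem' := by simp
  smul_mem' := by
    intro c x hx
    refine hx.subset fun i hi => ?_
    simp only [Set.mem_ofPred_eq, smul_eq_mul, Pi.mul_apply] at hi
    exact fun h => hi (by rw [h, mul_zero])

theorem mem_finSuppIdeal {x : ∀ i, k i} : x ∈ finSuppIdeal k ↔ {i | x i ≠ 0}.Finite := Iff.rfl

theorem finSuppIdeal_ne_top [Infinite ι] : finSuppIdeal k ≠ ⊤ := by
  rw [Ne, Ideal.eq_top_iff_one, mem_finSuppIdeal]
  have : {i : ι | (1 : ∀ i, k i) i ≠ 0} = Set.univ := by
    ext i; simp
  rw [this]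
  exact Set.infinite_univ

/-- An element of the product which vanishes at finitely many places only is a unit modulo every
proper ideal containing `finSuppIdeal`. -/
theorem notMem_of_finite_zeros {𝔪 : Ideal (∀ i, k i)} (h𝔪 : 𝔪 ≠ ⊤) (hle : finSuppIdeal k ≤ 𝔪)
    {x : ∀ i, k i} (hx : {i | x i = 0}.Finite) : x ∉ 𝔪 := by
  intro hxm
  apply h𝔪
  rw [Ideal.eq_top_iff_one]
  let y : ∀ i, k i := fun i => (x i)⁻¹
  have h1 : x * y - 1 ∈ finSuppIdeal k := by
    rw [mem_finSuppIdeal]
    refine hx.subset fun i hi => ?_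
    simp only [Set.mem_ofPred_eq, Pi.sub_apply, Pi.mul_apply, Pi.one_apply] at hi ⊢
    by_contra h
    exact hi (by rw [mul_inv_cancel₀ h, sub_self])
  have h2 : x * y ∈ 𝔪 := 𝔪.mul_mem_right y hxm
  have h3 : (1 : ∀ i, k i) = x * y - (x * y - 1) := by ring
  rw [h3]
  exact 𝔪.sub_mem h2 (hle h1)

end

section Rep

variable {O : Type*} [CommRing O] [IsDomain O] {Ω : Type*} [Field Ω] [IsAlgClosed Ω]
  {ι : Type*} [Infinite ι] (k : ι → Type*) [∀ i, Field (k i)]
  {Γ : Type*} [Group Γ] [Finite Γ]

/-- **The ultraproduct representation, transferred to `Ω`.** -/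
theorem exists_rep_ultra (ι₀ : O →+* Ω) (hι₀ : Function.Injective ι₀) (φ : ∀ i, O →+* k i)
    (hφ : ∀ x : O, x ≠ 0 → {i | φ i x = 0}.Finite)
    (r : ∀ i, Γ →* GL (Fin 2) (k i)) (t d : Γ → O)
    (ht : ∀ g, {i | ((r i g : GL (Fin 2) (k i)) : Matrix (Fin 2) (Fin 2) (k i)).trace ≠
      φ i (t g)}.Finite)
    (hd : ∀ g, {i | ((r i g : GL (Fin 2) (k i)) : Matrix (Fin 2) (Fin 2) (k i)).det ≠
      φ i (d g)}.Finite) :
    ∃ r' : Γ →* GL (Fin 2) Ω,
      (∀ g, ((r' g : GL (Fin 2) Ω) : Matrix (Fin 2) (Fin 2) Ω).trace = ι₀ (t g)) ∧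
      ∀ g, ((r' g : GL (Fin 2) Ω) : Matrix (Fin 2) (Fin 2) Ω).det = ι₀ (d g) := by
  classical
  obtain ⟨𝔪, h𝔪, hle⟩ := Ideal.exists_le_maximal _ (finSuppIdeal_ne_top k)
  letI : Field ((∀ i, k i) ⧸ 𝔪) := Ideal.Quotient.field 𝔪
  let Φ : O →+* (∀ i, k i) := RingHom.pi φ
  have hΦ : ∀ x i, Φ x i = φ i x := fun _ _ => rfl
  let j : O →+* ((∀ i, k i) ⧸ 𝔪) := (Ideal.Quotient.mk 𝔪).comp Φ
  have hj : Function.Injective j := by
    rw [injective_iff_map_eq_zero]
    intro x hx
    by_contra hx0
    have h1 : Φ x ∈ 𝔪 := Ideal.Quotient.eq_zero_iff_mem.mp hx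
    exact notMem_of_finite_zeros k h𝔪.ne_top hle (x := Φ x) (hφ x hx0) h1
  -- the product representation
  let MP : Γ → Matrix (Fin 2) (Fin 2) (∀ i, k i) := fun g =>
    Matrix.of fun a b => fun i => ((r i g : GL (Fin 2) (k i)) : Matrix (Fin 2) (Fin 2) (k i)) a b
  have hMP : ∀ g a b i, MP g a b i =
      ((r i g : GL (Fin 2) (k i)) : Matrix (Fin 2) (Fin 2) (k i)) a b := fun _ _ _ _ => rfl
  have hMP_mul : ∀ g h, MP (g * h) = MP g * MP h := by
    intro g h
    ext a b i
    rw [Matrix.mul_apply, Finset.sum_apply, hMP, map_mul, Units.val_mul, Matrix.mul_apply]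
    refine Finset.sum_congr rfl fun c _ => ?_
    rw [Pi.mul_apply, hMP, hMP]
  have hMP_one : MP 1 = 1 := by
    ext a b i
    rw [hMP, map_one, Units.val_one]
    by_cases hab : a = b
    · subst hab
      rw [Matrix.one_apply_eq, Matrix.one_apply_eq]; rfl
    · rw [Matrix.one_apply_ne hab, Matrix.one_apply_ne hab]; rfl
  let q : (∀ i, k i) →+* ((∀ i, k i) ⧸ 𝔪) := Ideal.Quotient.mk 𝔪
  let rF₀ : Γ →* Matrix (Fin 2) (Fin 2) ((∀ i, k i) ⧸ 𝔪) :=
    { toFun := fun g => (MP g).map q
      map_one' := by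
        rw [hMP_one]
        exact (RingHom.mapMatrix q).map_one
      map_mul' := fun g h => by
        rw [hMP_mul, Matrix.map_mul] }
  let rF : Γ →* GL (Fin 2) ((∀ i, k i) ⧸ 𝔪) := rF₀.toHomUnits
  have key : ∀ x y : (∀ i, k i), {i | x i ≠ y i}.Finite → q x = q y := by
    intro x y hxy
    rw [Ideal.Quotient.eq]
    apply hle
    rw [mem_finSuppIdeal]
    refine hxy.subset fun i hi => ?_
    intro h
    apply hi
    change x i - y i = 0
    rw [h, sub_self]
  have htr : ∀ g, ((rF g : GL (Fin 2) ((∀ i, k i) ⧸ 𝔪)) :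
      Matrix (Fin 2) (Fin 2) ((∀ i, k i) ⧸ 𝔪)).trace = j (t g) := by
    intro g
    change ((MP g).map q).trace = q (Φ (t g))
    have e1 : ((MP g).map q).trace = q ((MP g).trace) := by
      simp [Matrix.trace_fin_two]
    rw [e1]
    apply key
    refine (ht g).subset fun i hi => ?_
    intro h
    apply hi
    rw [hΦ, Matrix.trace_fin_two, ← h, Matrix.trace_fin_two]
    rfl
  have hdet : ∀ g, ((rF g : GL (Fin 2) ((∀ i, k i) ⧸ 𝔪)) :
      Matrix (Fin 2) (Fin 2) ((∀ i, k i) ⧸ 𝔪)).det = j (d g) := by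
    intro g
    change ((MP g).map q).det = q (Φ (d g))
    have e1 : ((MP g).map q).det = q ((MP g).det) := by
      simp [Matrix.det_fin_two]
    rw [e1]
    apply key
    refine (hd g).subset fun i hi => ?_
    intro h
    apply hi
    rw [hΦ, Matrix.det_fin_two, ← h, Matrix.det_fin_two]
    rfl
  exact exists_rep_of_rep_domain ι₀ hι₀ j hj t d rF htr hdet

end Rep

end Fermat.Agent.DS.Lift
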